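import Mathlib
import Fermat.Agent.LT.T7.H514.FactUpQSpec

/-!
# Row LT, tower T7, node Q2.7.13 `FactUpQC298`, LEAF Q2.7.13.4 = `LocEqArchQC514`
(registry row 2711, owner helper659)

OFF-MAIN.  No hole, nothing assumed.
Spec: `LT/T7/H514/FactUpQSpec.lean` (helper514@c4d7f196f, sha256 01844c0a365a9314, byte-identical
copy).

    locEqArchQC659 (F) : T7.FUQ514.LocEqArchQC514 F                         (VERBATIM)

Proof (the route of the Spec).  `γ' = (γ r^j)_∞ = γ_∞ · t^j` and `δ' = (δ r'^j)_w = δ_w · t'^j`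
with the positive scalars `t² = 2` (`finrank ℚ ℚ = 1`), `t'⁴ = 2` (`finrank ℚ F = 2`), so
`t'² = t`.  `γ'` is regular with the centraliser of `γ_∞` (`twCentSub_mul_central659`: a scalar
is central), so the data `L.μtr`, `L.βr`, `β'` are data for `γ'` (`archMatch_of_cent_eq659`:
rewriting along the equality of the two subgroups, no transport of measures).
`N δ' = δ' conj(δ') = (δ σ(δ))_w t'^{2j} = (γ')_ℂ`: `w ∘ σ = conj ∘ w` (`embedding_conj659`: `F`
has one infinite place and `σ ≠ 1`).  Then the FIRST clause of `T6.IsArchMatch`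
(`LocHypQ298.arch w`).
-/

set_option autoImplicit false

open AutomorphicForm IsDedekindDomain NumberField MeasureTheory
open scoped ComplexConjugate

noncomputable section

namespace Fermat.Agent.LT.T7.H659

open Fermat.Agent.LT.H556 Fermat.Agent.LT.H556.A0 Fermat.Agent.LT.T7 Fermat.Agent.LT.T7.H305
open Fermat.Agent.LT.T7.MQ298 Fermat.Agent.LT.T7.H340

/-! ## 1. The transport along the equality of the centralisers -/

/-- The first clause of `T6.IsArchMatch` at `γ'`, for data on the centraliser of `γ₀`, when the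
two centralisers are the same subgroup. -/
theorem archMatch_of_cent_eq659 {μ : @Measure (GL (Fin 2) ℝ) (borel _)}
    {μ' : @Measure (GL (Fin 2) ℂ) (borel _)} {φ : GL (Fin 2) ℂ → ℂ} {f : GL (Fin 2) ℝ → ℂ}
    (hm : T6.IsArchMatch μ μ' φ f) {γ₀ γ' : GL (Fin 2) ℝ} (hreg : T6.IsReg γ')
    (hc : T6.twCentSub (MonoidHom.id (GL (Fin 2) ℝ)) γ'
      = T6.twCentSub (MonoidHom.id (GL (Fin 2) ℝ)) γ₀)
    (μT : @Measure (T6.twCentSub (MonoidHom.id (GL (Fin 2) ℝ)) γ₀) (borel _))
    (hμT : @Measure.IsHaarMeasure _ _ _ (borel _) μT)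
    (β : GL (Fin 2) ℝ → ℝ) (hβc : Continuous β) (hβ0 : ∀ x, 0 ≤ β x)
    (hβ : ∀ x : GL (Fin 2) ℝ, @integral _ _ _ _ (borel _) μT
      (fun t : T6.twCentSub (MonoidHom.id (GL (Fin 2) ℝ)) γ₀ => β ((t : GL (Fin 2) ℝ) * x)) = 1)
    (δ : GL (Fin 2) ℂ)
    (hδ : T6.twNorm (starRingAut : ℂ ≃+* ℂ) 2 δ
      = Matrix.GeneralLinearGroup.map (algebraMap ℝ ℂ) γ')
    (β' : GL (Fin 2) ℂ → ℝ) (hβ'c : Continuous β') (hβ'0 : ∀ x, 0 ≤ β' x)
    (hβ' : ∀ x : GL (Fin 2) ℂ, @integral _ _ _ _ (borel _) μT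
      (fun t : T6.twCentSub (MonoidHom.id (GL (Fin 2) ℝ)) γ₀ =>
        β' (Matrix.GeneralLinearGroup.map (algebraMap ℝ ℂ) (t : GL (Fin 2) ℝ) * x)) = 1) :
    @integral _ _ _ _ (borel _) μ (fun x : GL (Fin 2) ℝ => f (x⁻¹ * γ' * x) * (β x : ℂ))
      = @integral _ _ _ _ (borel _) μ'
          (fun x : GL (Fin 2) ℂ =>
            φ (x⁻¹ * δ * T6.glAut (starRingAut : ℂ ≃+* ℂ) x) * (β' x : ℂ)) := by
  revert μT
  rw [← hc]
  intro μT hμT hβ hβ'
  exact (hm γ' hreg μT hμT β hβc hβ0 hβ).1 δ hδ β' hβ'c hβ'0 hβ'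

/-! ## 2. Components -/

/-- The real component in `ℂ` is the component at the infinite place of `ℚ`. -/
theorem reHomQ_ofReal659 (x : Adl ℚ) :
    ((reHomQ298 x : ℝ) : ℂ) = T5.infHom Rat.infinitePlace x := by
  show ((InfinitePlace.Completion.extensionEmbeddingOfIsReal Rat.isReal_infinitePlace
    (x.1 Rat.infinitePlace) : ℝ) : ℂ) = _
  rw [InfinitePlace.Completion.extensionEmbeddingOfIsReal_apply]
  rfl

/-- The real component of an element which is the scalar `t` at the infinite place. -/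
theorem reGLQ_of_scalar659 {r : G ℚ} {t : ℝ} (ht : t ≠ 0)
    (h : infComp Rat.infinitePlace r = Matrix.diagonal (fun _ => (t : ℂ))) :
    reGLQ298 r = Matrix.GeneralLinearGroup.scalar (Fin 2) (Units.mk0 t ht) := by
  apply Units.ext
  ext i j
  have h1 := congrFun (congrFun h i) j
  have h2 : (((reGLQ298 r : GL (Fin 2) ℝ) : Matrix (Fin 2) (Fin 2) ℝ) i j : ℂ)
      = infComp Rat.infinitePlace r i j := reHomQ_ofReal659 _
  rw [h1] at h2
  apply Complex.ofReal_injective
  rw [h2, Matrix.GeneralLinearGroup.coe_scalar]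
  by_cases hij : i = j
  · subst hij
    simp
  · simp [hij]

variable {F : Type} [Field F] [NumberField F]

/-- The component at `w` of an element which is the scalar `t` at `w`. -/
theorem infGL_of_scalar659 {w : InfinitePlace F} {r : G F} {t : ℝ} (ht : (t : ℂ) ≠ 0)
    (h : infComp w r = Matrix.diagonal (fun _ => (t : ℂ))) :
    infGL305 w r = Matrix.GeneralLinearGroup.scalar (Fin 2) (Units.mk0 (t : ℂ) ht) := by
  apply Units.ext
  ext i j
  have h1 := congrFun (congrFun h i) j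
  have h2 : ((infGL305 w r : GL (Fin 2) ℂ) : Matrix (Fin 2) (Fin 2) ℂ) i j
      = infComp w r i j := rfl
  rw [h2, h1, Matrix.GeneralLinearGroup.coe_scalar]
  by_cases hij : i = j
  · subst hij
    simp
  · simp [hij]

/-- The component at `w` of a rational element. -/
theorem infHom_algebraMap659 (w : InfinitePlace F) (x : F) :
    T5.infHom w (algebraMap F (Adl F) x) = w.embedding x := by
  show InfinitePlace.Completion.extensionEmbedding w
    ((algebraMap F (Adl F) x).1 w) = _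
  exact InfinitePlace.Completion.extensionEmbedding_coe w _

theorem infGL_ratG659 (w : InfinitePlace F) (δ : GL (Fin 2) F) :
    infGL305 w (T5.ratG δ) = Matrix.GeneralLinearGroup.map w.embedding δ := by
  apply Units.ext
  ext i j
  exact infHom_algebraMap659 w _

theorem reHomQ_algebraMap659 (x : ℚ) : reHomQ298 (algebraMap ℚ (Adl ℚ) x) = (x : ℝ) := by
  apply Complex.ofReal_injective
  rw [reHomQ_ofReal659, infHom_algebraMap659]
  simp

theorem reGLQ_ratG659 (γ : GL (Fin 2) ℚ) :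
    reGLQ298 (T5.ratG γ) = Matrix.GeneralLinearGroup.map (algebraMap ℚ ℝ) γ := by
  apply Units.ext
  ext i j
  exact reHomQ_algebraMap659 _

/-! ## 3. Conjugation, discriminants, centralisers -/

omit [NumberField F] in
/-- In a field with ONE infinite place `w`, an automorphism `σ ≠ 1` is the complex conjugation in
the coordinate of `w`. -/
theorem embedding_conj659 (h1 : Nat.card (InfinitePlace F) = 1) (w : InfinitePlace F)
    (σ : F ≃+* F) (hσ : ∃ x : F, σ x ≠ x) (y : F) :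
    w.embedding (σ y) = conj (w.embedding y) := by
  have hsub : Subsingleton (InfinitePlace F) := by
    have : Finite (InfinitePlace F) := Nat.finite_of_card_ne_zero (by rw [h1]; exact one_ne_zero)
    exact (Nat.card_eq_one_iff_unique.1 h1).1
  have hmk : InfinitePlace.mk w.embedding
      = InfinitePlace.mk (w.embedding.comp (σ : F →+* F)) := Subsingleton.elim _ _
  rcases InfinitePlace.mk_eq_iff.1 hmk with h | h
  · exfalso
    obtain ⟨x, hx⟩ := hσ
    apply hx
    apply w.embedding.injective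
    have := congrArg (fun f : F →+* ℂ => f x) h
    exact this.symm
  · have := congrArg (fun f : F →+* ℂ => f y) h
    exact this.symm

/-- The discriminant of a scalar multiple. -/
theorem disc_mul_scalar659 {R : Type} [CommRing R] (γ : GL (Fin 2) R) (u : Rˣ) :
    T6.disc (γ * Matrix.GeneralLinearGroup.scalar (Fin 2) u) = (u : R) ^ 2 * T6.disc γ := by
  show ((γ * Matrix.GeneralLinearGroup.scalar (Fin 2) u : GL (Fin 2) R) :
      Matrix (Fin 2) (Fin 2) R).trace ^ 2
    - 4 * ((γ * Matrix.GeneralLinearGroup.scalar (Fin 2) u : GL (Fin 2) R) :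
      Matrix (Fin 2) (Fin 2) R).det
    = (u : R) ^ 2 * ((γ : Matrix (Fin 2) (Fin 2) R).trace ^ 2
      - 4 * (γ : Matrix (Fin 2) (Fin 2) R).det)
  rw [Units.val_mul, Matrix.GeneralLinearGroup.coe_scalar, Matrix.det_mul,
    Matrix.trace_fin_two, Matrix.trace_fin_two, Matrix.det_fin_two, Matrix.det_fin_two]
  simp only [Matrix.mul_apply, Fin.sum_univ_two, Matrix.scalar_apply, Matrix.diagonal_apply_eq,
    Matrix.diagonal_apply_ne, ne_eq, zero_ne_one, one_ne_zero, not_false_eq_true, mul_zero,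
    add_zero, zero_add, Fin.isValue]
  ring

/-- The discriminant of the image under a ring homomorphism. -/
theorem disc_map659 {R S : Type} [CommRing R] [CommRing S] (f : R →+* S) (γ : GL (Fin 2) R) :
    T6.disc (Matrix.GeneralLinearGroup.map f γ) = f (T6.disc γ) := by
  show ((Matrix.GeneralLinearGroup.map f γ : GL (Fin 2) S) : Matrix (Fin 2) (Fin 2) S).trace ^ 2
    - 4 * ((Matrix.GeneralLinearGroup.map f γ : GL (Fin 2) S) : Matrix (Fin 2) (Fin 2) S).det
    = f ((γ : Matrix (Fin 2) (Fin 2) R).trace ^ 2 - 4 * (γ : Matrix (Fin 2) (Fin 2) R).det)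
  rw [Matrix.trace_fin_two, Matrix.trace_fin_two, Matrix.det_fin_two, Matrix.det_fin_two]
  simp only [Matrix.GeneralLinearGroup.map_apply, map_sub, map_mul, map_pow, map_add,
    map_ofNat]

/-- The centraliser of a central multiple. -/
theorem twCentSub_mul_central659 {Γ : Type} [Group Γ] (γ c : Γ) (hc : ∀ x : Γ, c * x = x * c) :
    T6.twCentSub (MonoidHom.id Γ) (γ * c) = T6.twCentSub (MonoidHom.id Γ) γ := by
  ext x
  show x⁻¹ * (γ * c) * x = γ * c ↔ x⁻¹ * γ * x = γ
  have e : x⁻¹ * (γ * c) * x = x⁻¹ * γ * x * c := by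
    calc x⁻¹ * (γ * c) * x = x⁻¹ * γ * (c * x) := by simp only [mul_assoc]
      _ = x⁻¹ * γ * (x * c) := by rw [hc x]
      _ = x⁻¹ * γ * x * c := by simp only [mul_assoc]
  rw [e]
  exact mul_left_inj c

/-- The image of a scalar matrix under a ring homomorphism. -/
theorem map_scalar_eq659 {R S : Type} [CommRing R] [CommRing S] (f : R →+* S) (u : Rˣ) (v : Sˣ)
    (h : f (u : R) = (v : S)) :
    Matrix.GeneralLinearGroup.map f (Matrix.GeneralLinearGroup.scalar (Fin 2) u)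
      = Matrix.GeneralLinearGroup.scalar (Fin 2) v := by
  rw [Matrix.GeneralLinearGroup.map_scalar]
  congr 1
  exact Units.ext h

/-- The twisted norm of degree two of a central multiple. -/
theorem twNorm_core659 (A B Z G : GL (Fin 2) ℂ)
    (hA : T6.glAut (starRingAut : ℂ ≃+* ℂ) A = B) (hZ : T6.glAut (starRingAut : ℂ ≃+* ℂ) Z = Z)
    (hcomm : ∀ x : GL (Fin 2) ℂ, Z * x = x * Z) (hAB : A * B = G) :
    T6.twNorm (starRingAut : ℂ ≃+* ℂ) 2 (A * Z) = G * (Z * Z) := by
  show A * Z * T6.glAut (starRingAut : ℂ ≃+* ℂ)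
      (A * Z * T6.glAut (starRingAut : ℂ ≃+* ℂ) 1) = G * (Z * Z)
  rw [map_one, mul_one, map_mul, hA, hZ, ← hAB]
  calc A * Z * (B * Z) = A * (Z * B) * Z := by simp only [mul_assoc]
    _ = A * (B * Z) * Z := by rw [hcomm B]
    _ = A * B * (Z * Z) := by simp only [mul_assoc]

/-! ## 4. The leaf -/

/-- **LEAF Q2.7.13.4 = LOC-EQ-ARCH over `ℚ`** (VERBATIM). -/
theorem locEqArchQC659 (F : Type) [Field F] [NumberField F] : FUQ514.LocEqArchQC514 F := by
  intro hIQ D hD hcyc hl ι hι μr hμr μc hμc S n m φ₀ Φ f₀ F0 F1 hLoc δ γ hEll hN L hL j J hJ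
  obtain ⟨w, β', hβ'c, hβ'0, hβ', rfl⟩ := hJ
  -- the two rays
  obtain ⟨-, t, ht0, ht2, htr⟩ := hD.frame.ray
  obtain ⟨-, t', ht'0, ht'2, ht'r⟩ := hD.frame'.ray
  have hfr : Module.finrank ℚ F = 2 := by rw [hcyc.degree, hl]
  rw [Module.finrank_self] at ht2
  rw [hfr] at ht'2
  have htt : t' ^ 2 = t := by
    have h1 : (t' ^ 2) ^ 2 = t ^ 2 := by
      rw [← pow_mul]
      exact ht'2.trans ht2.symm
    exact (pow_left_inj₀ (by positivity) ht0.le (by norm_num)).1 h1
  have ht'C : (t' : ℂ) ≠ 0 := Complex.ofReal_ne_zero.2 ht'0.ne'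
  have hz : reGLQ298 D.R.r = Matrix.GeneralLinearGroup.scalar (Fin 2) (Units.mk0 t ht0.ne') :=
    reGLQ_of_scalar659 ht0.ne' (htr Rat.infinitePlace)
  have hz' : infGL305 w D.R'.r
      = Matrix.GeneralLinearGroup.scalar (Fin 2) (Units.mk0 (t' : ℂ) ht'C) :=
    infGL_of_scalar659 ht'C (ht'r w)
  -- the element downstairs
  have hγ' : reGLQ298 (T5.ratG γ * D.R.r ^ j)
      = Matrix.GeneralLinearGroup.map (algebraMap ℚ ℝ) γ
        * Matrix.GeneralLinearGroup.scalar (Fin 2) ((Units.mk0 t ht0.ne') ^ j) := by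
    rw [map_mul, map_zpow, hz, ← map_zpow, reGLQ_ratG659]
  have hc : T6.twCentSub (MonoidHom.id (GL (Fin 2) ℝ)) (reGLQ298 (T5.ratG γ * D.R.r ^ j))
      = T6.twCentSub (MonoidHom.id (GL (Fin 2) ℝ)) (reGLQ298 (T5.ratG γ)) := by
    rw [hγ', reGLQ_ratG659]
    exact twCentSub_mul_central659 _ _ (fun x => Matrix.GeneralLinearGroup.scalar_commute _ x)
  have hreg : T6.IsReg (reGLQ298 (T5.ratG γ * D.R.r ^ j)) := by
    rw [hγ']
    show IsUnit (T6.disc _)
    rw [disc_mul_scalar659, disc_map659]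
    exact IsUnit.mul (IsUnit.pow _ (Units.isUnit _))
      ((hEll.1 : IsUnit (T6.disc γ)).map (algebraMap ℚ ℝ))
  -- the element upstairs
  have hσ : ∃ x : F, D.s.σ x ≠ x := by
    obtain ⟨x, hx⟩ := hD.cyc.faithful 1 one_pos (by rw [hl]; norm_num)
    exact ⟨x, by simpa using hx⟩
  have hconj : ∀ y : F, w.embedding (D.s.σ y) = conj (w.embedding y) :=
    embedding_conj659 hIQ.1 w D.s.σ hσ
  have hδ0 : infGL305 w (T5.ratG δ * D.R'.r ^ j)
      = Matrix.GeneralLinearGroup.map w.embedding δ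
        * Matrix.GeneralLinearGroup.scalar (Fin 2) ((Units.mk0 (t' : ℂ) ht'C) ^ j) := by
    rw [map_mul, map_zpow, hz', ← map_zpow, infGL_ratG659]
  have hsc : T6.glAut (starRingAut : ℂ ≃+* ℂ)
      (Matrix.GeneralLinearGroup.scalar (Fin 2) ((Units.mk0 (t' : ℂ) ht'C) ^ j))
      = Matrix.GeneralLinearGroup.scalar (Fin 2) ((Units.mk0 (t' : ℂ) ht'C) ^ j) := by
    refine map_scalar_eq659 ((starRingAut : ℂ ≃+* ℂ) : ℂ →+* ℂ) _ _ ?_
    show conj (((Units.mk0 (t' : ℂ) ht'C) ^ j : ℂˣ) : ℂ) = _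
    rw [Units.val_zpow_eq_zpow_val, Units.val_mk0, map_zpow₀, Complex.conj_ofReal]
  have hemb : T6.glAut (starRingAut : ℂ ≃+* ℂ) (Matrix.GeneralLinearGroup.map w.embedding δ)
      = Matrix.GeneralLinearGroup.map w.embedding (D.s.onRat δ) := by
    apply Units.ext
    ext a b
    exact (hconj _).symm
  have hnorm : D.s.normUpTo 2 δ = δ * D.s.onRat δ := by
    show δ * D.s.onRat (δ * D.s.onRat 1) = δ * D.s.onRat δ
    rw [map_one, mul_one]
  have hQ : Matrix.GeneralLinearGroup.map w.embedding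
      (Matrix.GeneralLinearGroup.map (algebraMap ℚ F) γ)
      = Matrix.GeneralLinearGroup.map (algebraMap ℝ ℂ)
        (Matrix.GeneralLinearGroup.map (algebraMap ℚ ℝ) γ) := by
    apply Units.ext
    ext a b
    show w.embedding (algebraMap ℚ F _) = algebraMap ℝ ℂ (algebraMap ℚ ℝ _)
    simp
  have hAB : Matrix.GeneralLinearGroup.map w.embedding δ
      * Matrix.GeneralLinearGroup.map w.embedding (D.s.onRat δ)
      = Matrix.GeneralLinearGroup.map (algebraMap ℝ ℂ)
        (Matrix.GeneralLinearGroup.map (algebraMap ℚ ℝ) γ) := by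
    rw [← map_mul, ← hnorm, ← hQ, ← hN, hl]
  have hZ : Matrix.GeneralLinearGroup.map (algebraMap ℝ ℂ)
      (Matrix.GeneralLinearGroup.scalar (Fin 2) ((Units.mk0 t ht0.ne') ^ j))
      = Matrix.GeneralLinearGroup.scalar (Fin 2) ((Units.mk0 (t' : ℂ) ht'C) ^ j)
        * Matrix.GeneralLinearGroup.scalar (Fin 2) ((Units.mk0 (t' : ℂ) ht'C) ^ j) := by
    rw [← map_mul]
    refine map_scalar_eq659 (algebraMap ℝ ℂ) _ _ ?_
    show ((((Units.mk0 t ht0.ne') ^ j : ℝˣ) : ℝ) : ℂ) = _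
    rw [Units.val_mul, Units.val_zpow_eq_zpow_val, Units.val_zpow_eq_zpow_val, Units.val_mk0,
      Units.val_mk0, ← htt]
    push_cast
    rw [← mul_zpow, sq]
  have hδ' : T6.twNorm (starRingAut : ℂ ≃+* ℂ) 2 (infGL305 w (T5.ratG δ * D.R'.r ^ j))
      = Matrix.GeneralLinearGroup.map (algebraMap ℝ ℂ) (reGLQ298 (T5.ratG γ * D.R.r ^ j)) := by
    rw [hδ0, hγ', map_mul (Matrix.GeneralLinearGroup.map (algebraMap ℝ ℂ)), hZ]
    exact twNorm_core659 _ _ _ _ hemb hsc
      (fun x => Matrix.GeneralLinearGroup.scalar_commute _ x) hAB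
  exact (archMatch_of_cent_eq659 (hLoc.arch w) hreg hc L.μtr hL.torr L.βr hL.cutr.1
    hL.cutr.2.1 hL.cutr.2.2 _ hδ' β' hβ'c hβ'0 hβ').symm

end Fermat.Agent.LT.T7.H659

end
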